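import Mathlib
import Fermat.Agent.BR.Circle.Match

/-!
# Program C (S36), node A9, part 2a: annulus charts for a setup with ANY family of components

`Circle.AnnulusChart S₀ e` (`BR/Circle/Chart`) has the field `comp : ∀ v, v = src e ∨ v = tgt e`
(two components only), used only for `circleRing_ne_O` (→ `Refine.ChainFamily.O_ne`).  Here:

* `SepComp S₀ e w` : the component `w` is separated from the tube of the node `e` by a function
  (small on the tube, a unit of `O w`);
* `AnnulusChartN S₀ e` : the contract `AnnulusChart` with `comp` replaced by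
  `sep_comp : ∀ w, w ≠ src e → w ≠ tgt e → SepComp S₀ e w`;
* `AnnulusChartN.ofChart` : every `AnnulusChart` is an `AnnulusChartN`;
* `circleRing_ne_O`, `tubeFact`, `nodeFact`, `levelFact`, and the six matching / unit statements on
  the sub-annulus next to `src e` and next to `tgt e` in the shapes of the fields of
  `Refine.ChainFamily` (`match_first`, `unit_first`, `match_last`, `unit_last`).
-/

set_option autoImplicit false

noncomputable section

namespace Fermat.Agent.BR3.CircleN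

open AlgebraicCurve IsLocalRing Fermat.Agent.Red Fermat.Agent.BR.InertiaRed
  Fermat.Agent.BR.AnnulusRed Fermat.Agent.BR.P1 Fermat.Agent.BR.Centre Fermat.Agent.BR.SS
  Fermat.Agent.BR.Refine Fermat.Agent.BR.Fact Fermat.Agent.BR.Circle

variable {K : Type} {F : Type*} [Field K] [Field F] [Algebra K F]
  {A : ValuationSubring K}
  {ι₀ : Type} {Ft₀ : ι₀ → Type} [∀ v, Field (Ft₀ v)] [∀ v, Algebra (ResidueField A) (Ft₀ v)]
  {ν₀ : Type}

/-- The component `w` is separated from the tube of the node `e` by a function: small on the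
tube, a unit on the component. -/
def SepComp (S₀ : SemistableSetup (F := F) A (residue A) ι₀ Ft₀ ν₀) (e : ν₀) (w : ι₀) : Prop :=
  ∃ f : F, (∀ P ∈ tube S₀ e, ∃ d : K, IsValueAt P f d ∧ A.valuation d < 1) ∧
    ∃ h : f ∈ S₀.O w, IsUnit (⟨f, h⟩ : S₀.O w)

/-- **The contract, for any family of components.** An annulus chart of the node `e` of the
semistable setup `S₀`. -/
structure AnnulusChartN (S₀ : SemistableSetup (F := F) A (residue A) ι₀ Ft₀ ν₀) (e : ν₀) where
  /-- the annulus coordinate -/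
  u : F
  /-- the thickness element: the tube is `|thick| < |u| < 1` -/
  thick : K
  thick_ne : thick ≠ 0
  thick_lt : A.valuation thick < 1
  val_mem : ∀ P ∈ tube S₀ e, ∃ c : K, IsValueAt P u c ∧ A.valuation thick < A.valuation c ∧
    A.valuation c < 1
  bij : ∀ c : K, A.valuation thick < A.valuation c → A.valuation c < 1 →
    ∃! P, P ∈ tube S₀ e ∧ IsValueAt P u c
  simple : ∀ P ∈ tube S₀ e, P.ord (u - algebraMap K F (evalAt P u)) = 1
  factor : ∀ y : F, y ≠ 0 → ∃ (S : Finset (Place K F)) (n : Place K F → ℤ) (b : ℤ) (c : K),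
    (∀ Q ∈ S, Q ∈ tube S₀ e) ∧ c ≠ 0 ∧
      NodeUnit S₀ e (y * (c • (u ^ b *
        ∏ Q ∈ S, (u - algebraMap K F (evalAt Q u)) ^ n Q))⁻¹)
  /-- `u` is integral on the component `src e` … -/
  u_src : u ∈ S₀.O (S₀.src e)
  /-- … and its residue has a simple zero at the branch `s₁ e` -/
  ord_src : (S₀.s₁ e).ord (S₀.res (S₀.src e) ⟨u, u_src⟩) = 1
  /-- `thick / u` is integral on the component `tgt e` … -/
  v_tgt : thick • u⁻¹ ∈ S₀.O (S₀.tgt e)
  /-- … and its residue has a simple zero at the branch `s₂ e` -/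
  ord_tgt : (S₀.s₂ e).ord (S₀.res (S₀.tgt e) ⟨thick • u⁻¹, v_tgt⟩) = 1
  /-- the other components are separated from the tube of the node -/
  sep_comp : ∀ w, w ≠ S₀.src e → w ≠ S₀.tgt e → SepComp S₀ e w

namespace AnnulusChartN

variable {S₀ : SemistableSetup (F := F) A (residue A) ι₀ Ft₀ ν₀} {e : ν₀}

/-- Every two-component annulus chart is an annulus chart in the present sense. -/
def ofChart (ch : AnnulusChart S₀ e) : AnnulusChartN S₀ e where
  u := ch.u
  thick := ch.thick
  thick_ne := ch.thick_ne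
  thick_lt := ch.thick_lt
  val_mem := ch.val_mem
  bij := ch.bij
  simple := ch.simple
  factor := ch.factor
  u_src := ch.u_src
  ord_src := ch.ord_src
  v_tgt := ch.v_tgt
  ord_tgt := ch.ord_tgt
  sep_comp := fun w h1 h2 => by
    rcases ch.comp w with h | h
    · exact absurd h h1
    · exact absurd h h2

variable (ch : AnnulusChartN S₀ e)

/-- The K-level core of an annulus chart. -/
def toCore : AnnulusCore A (tube S₀ e) where
  u := ch.u
  thick := ch.thick
  thick_ne := ch.thick_ne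
  thick_lt := ch.thick_lt
  val_mem := ch.val_mem
  bij := ch.bij
  simple := ch.simple
  factor := fun y hy => by
    obtain ⟨S, n, b, c, hS, hc, hε⟩ := ch.factor y hy
    exact ⟨S, n, b, c, hS, hc, hε.1⟩

@[simp] theorem toCore_u : ch.toCore.u = ch.u := rfl

@[simp] theorem toCore_thick : ch.toCore.thick = ch.thick := rfl

@[simp] theorem ofChart_u (ch' : AnnulusChart S₀ e) : (ofChart ch').u = ch'.u := rfl

@[simp] theorem ofChart_toCore (ch' : AnnulusChart S₀ e) : (ofChart ch').toCore = ch'.toCore := rfl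

theorem res_u_src_ne_zero : S₀.res (S₀.src e) ⟨ch.u, ch.u_src⟩ ≠ 0 := by
  intro h0
  have h1 := ch.ord_src
  rw [h0, Place.ord_zero] at h1
  exact zero_ne_one h1

theorem res_v_tgt_ne_zero : S₀.res (S₀.tgt e) ⟨ch.thick • ch.u⁻¹, ch.v_tgt⟩ ≠ 0 := by
  intro h0
  have h1 := ch.ord_tgt
  rw [h0, Place.ord_zero] at h1
  exact zero_ne_one h1

/-- `u` is a unit on the component `src e`. -/
theorem isUnit_u_src : IsUnit (⟨ch.u, ch.u_src⟩ : S₀.O (S₀.src e)) := by
  by_contra hnu
  exact ch.res_u_src_ne_zero ((S₀.res_eq_zero_iff _ _).mpr hnu)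

/-- `thick / u` is a unit on the component `tgt e`. -/
theorem isUnit_v_tgt : IsUnit (⟨ch.thick • ch.u⁻¹, ch.v_tgt⟩ : S₀.O (S₀.tgt e)) := by
  by_contra hnu
  exact ch.res_v_tgt_ne_zero ((S₀.res_eq_zero_iff _ _).mpr hnu)

theorem u_inv_mem_src : ch.u⁻¹ ∈ S₀.O (S₀.src e) := by
  obtain ⟨w, hw⟩ := ch.isUnit_u_src.exists_right_inv
  have h1 : ch.u * (w : F) = 1 := congrArg Subtype.val hw
  have h2 : ch.u⁻¹ = (w : F) := (eq_inv_of_mul_eq_one_right h1).symm
  rw [h2]
  exact w.2

theorem v_inv_mem_tgt : (ch.thick • ch.u⁻¹)⁻¹ ∈ S₀.O (S₀.tgt e) := by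
  obtain ⟨w, hw⟩ := ch.isUnit_v_tgt.exists_right_inv
  have h1 : (ch.thick • ch.u⁻¹) * (w : F) = 1 := congrArg Subtype.val hw
  have h2 : (ch.thick • ch.u⁻¹)⁻¹ = (w : F) := (eq_inv_of_mul_eq_one_right h1).symm
  rw [h2]
  exact w.2

variable [IsAlgClosed (ResidueField A)]
variable (a : K) (ha1 : A.valuation ch.toCore.thick < A.valuation a) (ha2 : A.valuation a < 1)

include ha1 ha2 in
theorem u_ne_zero : ch.u ≠ 0 := coord_ne_zero ch.toCore a ha1 ha2

/-- **The rings of the circles are different from the rings of the components of `S₀`.** -/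
theorem circleRing_ne_O (v : ι₀) : circleRing ch.toCore a ha1 ha2 ≠ S₀.O v := by
  have ha0 : a ≠ 0 := gauge_ne_zero (C := ch.toCore) ha1
  have hu0 : ch.u ≠ 0 := ch.u_ne_zero a ha1 ha2
  intro heq
  by_cases hsrc : v = S₀.src e
  · subst hsrc
    -- `a⁻¹ • u` lies in the circle ring but not in the ring of `src e`
    have h1 : a⁻¹ • ch.u ∈ S₀.O (S₀.src e) := by
      rw [← heq]
      exact coord_mem_circleRing ch.toCore a ha1 ha2
    have h2 := (S₀.O (S₀.src e)).mul_mem _ _ h1 ch.u_inv_mem_src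
    have h3 : a⁻¹ • ch.u * ch.u⁻¹ = algebraMap K F a⁻¹ := by
      rw [Algebra.smul_def, mul_assoc, mul_inv_cancel₀ hu0, mul_one]
    rw [h3, S₀.algebraMap_mem_iff, ← A.valuation_le_one_iff, map_inv₀] at h2
    have h4 : 1 ≤ A.valuation a := by
      have h5 := (inv_le_one₀ (lt_of_le_of_ne zero_le
        ((Valuation.ne_zero_iff _).mpr ha0).symm)).mp h2
      exact h5
    exact absurd ha2 (not_lt.mpr h4)
  by_cases htgt : v = S₀.tgt e
  · subst htgt
    -- `a • u⁻¹` lies in the circle ring but not in the ring of `tgt e`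
    have h1 : (a⁻¹ • ch.u)⁻¹ ∈ S₀.O (S₀.tgt e) := by
      rw [← heq]
      exact coord_inv_mem_circleRing ch.toCore a ha1 ha2
    have h2 := (S₀.O (S₀.tgt e)).mul_mem _ _ h1 ch.v_inv_mem_tgt
    have h3 : (a⁻¹ • ch.u)⁻¹ * (ch.thick • ch.u⁻¹)⁻¹ = algebraMap K F (a / ch.thick) := by
      have haF : algebraMap K F a ≠ 0 := (map_ne_zero _).mpr ha0
      have htF : algebraMap K F ch.thick ≠ 0 := (map_ne_zero _).mpr ch.thick_ne
      rw [Algebra.smul_def, Algebra.smul_def, map_inv₀, map_div₀]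
      field_simp
    rw [h3, S₀.algebraMap_mem_iff, ← A.valuation_le_one_iff, map_div₀] at h2
    have h4 : A.valuation a ≤ A.valuation ch.thick := by
      have hpos : 0 < A.valuation ch.thick :=
        lt_of_le_of_ne zero_le ((Valuation.ne_zero_iff _).mpr ch.thick_ne).symm
      exact (div_le_one₀ hpos).mp h2
    exact absurd ha1 (not_lt.mpr h4)
  · -- a separating function is a non-unit of the circle ring and a unit of `O v`
    obtain ⟨f, hf, hmem, hu⟩ := ch.sep_comp v hsrc htgt
    have hred : IsRed ch.toCore a f 0 := isRed_zero_of_small ch.toCore a hf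
    have hmemC : f ∈ circleRing ch.toCore a ha1 ha2 := ⟨0, hred⟩
    have h0 : circleRes ch.toCore a ha1 ha2 ⟨f, hmemC⟩ = 0 :=
      circleRes_mk ch.toCore a ha1 ha2 hred
    have hnu : ¬ IsUnit (⟨f, hmemC⟩ : circleRing ch.toCore a ha1 ha2) :=
      (circleRes_eq_zero_iff ch.toCore a ha1 ha2 _).mp h0
    apply hnu
    obtain ⟨w, hw⟩ := hu.exists_right_inv
    have hw1 : f * (w : F) = 1 := congrArg Subtype.val hw
    have hwmem : (w : F) ∈ circleRing ch.toCore a ha1 ha2 := by
      rw [heq]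
      exact w.2
    exact IsUnit.of_mul_eq_one (⟨(w : F), hwmem⟩ : circleRing ch.toCore a ha1 ha2)
      (Subtype.ext hw1)

omit [IsAlgClosed (ResidueField A)] in
/-- An annulus chart gives a `Fact.TubeFact` for the class of node units. -/
theorem tubeFact : TubeFact (tube S₀ e) ch.u (NodeUnit S₀ e) where
  val := ch.toCore.tubeFact.val
  val_ne := ch.toCore.tubeFact.val_ne
  simple := ch.simple
  inj := ch.toCore.tubeFact.inj
  tu_ord := fun _ hε _ hP => hε.1.ord_eq_zero hP
  factor := ch.factor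

/-- An annulus chart gives the contract `Fact.NodeFact` at the node. -/
theorem nodeFact : NodeFact S₀ e ch.u ch.thick (NodeUnit S₀ e) where
  tubeFact := ch.tubeFact
  thick_ne := ch.thick_ne
  lt_one := fun _ hP => (isValueAt_evalAt_u ch.toCore hP).2.2
  thick_lt := fun _ hP => (isValueAt_evalAt_u ch.toCore hP).2.1
  u_src := ⟨ch.u_src, by rw [ch.ord_src]; exact one_pos⟩
  v_tgt := ⟨ch.v_tgt, by rw [ch.ord_tgt]; exact one_pos⟩
  tu_src := fun _ hε => hε.2.1
  tu_tgt := fun _ hε => hε.2.2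

/-- The ring of a circle as a `Fact.LevelFact` for the class of node units. -/
theorem levelFact :
    LevelFact ch.u (NodeUnit S₀ e) a (circleRing ch.toCore a ha1 ha2)
      (circleRes ch.toCore a ha1 ha2) where
  gauge := circleGaugeComp ch.toCore a ha1 ha2
  coord_res := circleRes_coord ch.toCore a ha1 ha2
  tu := fun _ hε => (circleLevelFact ch.toCore a ha1 ha2).tu _ hε.1

local notation "k" => ResidueField A

/-- matching between the component `src e` and the first circle -/
theorem match_first (y : F) (h₁ : y ∈ S₀.O (S₀.src e))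
    (h₂ : y ∈ circleRing ch.toCore a ha1 ha2)
    (hpole : ∀ P ∈ tube S₀ e, A.valuation a < A.valuation (evalAt P ch.u) → 0 ≤ P.ord y) :
    ∃ c : k, IsValueAt (S₀.s₁ e) (S₀.res (S₀.src e) ⟨y, h₁⟩) c ∧
      IsValueAt (placeInfty k) (circleRes ch.toCore a ha1 ha2 ⟨y, h₂⟩) c :=
  ch.nodeFact.match_first (ch.levelFact a ha1 ha2) ha2 y h₁ h₂ hpole

/-- units between the component `src e` and the first circle -/
theorem unit_first (y : F) (h₁ : y ∈ S₀.O (S₀.src e))
    (h₂ : y ∈ circleRing ch.toCore a ha1 ha2)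
    (hpole : ∀ P ∈ tube S₀ e, A.valuation a < A.valuation (evalAt P ch.u) → 0 ≤ P.ord y)
    (hval : ∃ c : k, c ≠ 0 ∧ IsValueAt (S₀.s₁ e) (S₀.res (S₀.src e) ⟨y, h₁⟩) c) :
    ∀ P ∈ tube S₀ e, A.valuation a < A.valuation (evalAt P ch.u) → P.ord y = 0 :=
  ch.nodeFact.unit_first (ch.levelFact a ha1 ha2) ha2 y h₁ h₂ hpole hval

/-- matching between the last circle and the component `tgt e` -/
theorem match_last (y : F) (h₁ : y ∈ circleRing ch.toCore a ha1 ha2)
    (h₂ : y ∈ S₀.O (S₀.tgt e))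
    (hpole : ∀ P ∈ tube S₀ e, A.valuation (evalAt P ch.u) < A.valuation a → 0 ≤ P.ord y) :
    ∃ c : k, IsValueAt (placeAt k 0) (circleRes ch.toCore a ha1 ha2 ⟨y, h₁⟩) c ∧
      IsValueAt (S₀.s₂ e) (S₀.res (S₀.tgt e) ⟨y, h₂⟩) c :=
  ch.nodeFact.match_last (ch.levelFact a ha1 ha2) ha1 y h₁ h₂ hpole

/-- units between the last circle and the component `tgt e` -/
theorem unit_last (y : F) (h₁ : y ∈ circleRing ch.toCore a ha1 ha2)
    (h₂ : y ∈ S₀.O (S₀.tgt e))
    (hpole : ∀ P ∈ tube S₀ e, A.valuation (evalAt P ch.u) < A.valuation a → 0 ≤ P.ord y)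
    (hval : ∃ c : k, c ≠ 0 ∧
      IsValueAt (placeAt k 0) (circleRes ch.toCore a ha1 ha2 ⟨y, h₁⟩) c) :
    ∀ P ∈ tube S₀ e, A.valuation (evalAt P ch.u) < A.valuation a → P.ord y = 0 :=
  ch.nodeFact.unit_last (ch.levelFact a ha1 ha2) ha1 y h₁ h₂ hpole hval

end AnnulusChartN

end Fermat.Agent.BR3.CircleN
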