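import Mathlib
import Fermat.Agent.BR3.CircleN.Chart

/-!
# Program C (S36), node A9, part 2b: the chain provider of a setup with ANY family of components

`CircleInputsN S₀` : an annulus chart `AnnulusChartN S₀ e` for every node, the separation of the
nodes and the best approximation (C6) for the rings of the circles.  Conservation on the circles
(C4, `Circle.circle_conservation`) and matching on the sub-annuli (C5, `BR/Fact`) are theorems.

`CircleInputsN.chainProvider : Refine.ChainProvider S₀` (the input of
`Refine.hasNodalReductions_of_chainProvider`, `ChainFamily.noTorsionInKernel_refined`, `BR2/G4`,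
…), with `chainProvider_u : chainProvider.u e = (ch e).u` by `rfl`.
`CircleInputsN.ofCircleInputs` : the two-component inputs of `BR/Circle/Assembly` are inputs in the
present sense.
-/

set_option autoImplicit false
set_option linter.unusedSectionVars false

noncomputable section

namespace Fermat.Agent.BR3.CircleN

open AlgebraicCurve IsLocalRing Fermat.Agent.Red Fermat.Agent.BR.InertiaRed
  Fermat.Agent.BR.AnnulusRed Fermat.Agent.BR.P1 Fermat.Agent.BR.Centre Fermat.Agent.BR.SS
  Fermat.Agent.BR.Refine Fermat.Agent.BR.Fact Fermat.Agent.BR.Circle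

variable {K : Type} {F : Type*} [Field K] [Field F] [Algebra K F]
  {A : ValuationSubring K} [IsAlgClosed (ResidueField A)]
  {ι₀ : Type} {Ft₀ : ι₀ → Type} [∀ v, Field (Ft₀ v)] [∀ v, Algebra (ResidueField A) (Ft₀ v)]
  {ν₀ : Type}

local notation "k" => ResidueField A

/-- The inputs of the chain provider: annulus charts, separation of the nodes, and best
approximation (C6) for all admissible gauges. -/
structure CircleInputsN (S₀ : SemistableSetup (F := F) A (residue A) ι₀ Ft₀ ν₀) where
  /-- the annulus charts -/
  ch : ∀ e, AnnulusChartN S₀ e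
  sep : ∀ e e', e ≠ e' → Separated S₀ e e'
  approx : ∀ e a ha1 ha2, ApproxAt (ch e).toCore a ha1 ha2

namespace CircleInputsN

variable {S₀ : SemistableSetup (F := F) A (residue A) ι₀ Ft₀ ν₀}

/-- The two-component inputs of `BR/Circle/Assembly` are inputs in the present sense. -/
def ofCircleInputs (I : CircleInputs S₀) : CircleInputsN S₀ where
  ch := fun e => AnnulusChartN.ofChart (I.ch e)
  sep := I.sep
  approx := I.approx

variable (I : CircleInputsN S₀)

/-- The admissible gauges of the annulus of `e`. -/
def adm (e : ν₀) (a : K) : Prop :=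
  A.valuation (I.ch e).toCore.thick < A.valuation a ∧ A.valuation a < 1

variable (n : ν₀ → ℕ) (a : ∀ e, Fin (n e) → K) (hadm : ∀ e i, I.adm e (a e i))
  (hanti : ∀ e, StrictAnti fun i => A.valuation (a e i))

/-- The ring of the level `x` of the chain. -/
def levelRing (x : Σ e, Fin (n e)) : ValuationSubring F :=
  circleRing (I.ch x.1).toCore (a x.1 x.2) (hadm x.1 x.2).1 (hadm x.1 x.2).2

/-- The residue map of the level `x` of the chain. -/
def levelRes (x : Σ e, Fin (n e)) : I.levelRing n a hadm x →+* RatFunc k :=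
  circleRes (I.ch x.1).toCore (a x.1 x.2) (hadm x.1 x.2).1 (hadm x.1 x.2).2

include hanti in
theorem levelRing_injective : Function.Injective (I.levelRing n a hadm) := by
  rintro ⟨e, i⟩ ⟨e', i'⟩ h
  by_cases hee : e = e'
  · subst hee
    by_cases hii : i = i'
    · rw [hii]
    · exfalso
      have hne : A.valuation (a e i) ≠ A.valuation (a e i') :=
        fun hv => hii ((hanti e).injective hv)
      exact circleRing_ne (I.ch e).toCore (a e i) (hadm e i).1 (hadm e i).2 (a e i')
        (hadm e i').1 (hadm e i').2 hne h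
  · exfalso
    exact circleRing_ne_of_separated (I.ch e).toCore (I.ch e').toCore (a e i) (a e' i')
      (hadm e i).1 (hadm e i).2 (hadm e' i').1 (hadm e' i').2 (I.sep e e' hee) h

/-- **The chain family** on the gauges `a`. -/
def chainFamily : ChainFamily S₀ where
  u := fun e => (I.ch e).u
  n := n
  a := a
  a_ne := fun e i => gauge_ne_zero (C := (I.ch e).toCore) (hadm e i).1
  a_anti := hanti
  O := I.levelRing n a hadm
  res := I.levelRes n a hadm
  res_surjective := fun x =>
    circleRes_surjective (I.ch x.1).toCore (a x.1 x.2) (hadm x.1 x.2).1 (hadm x.1 x.2).2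
  res_eq_zero_iff := fun x y =>
    circleRes_eq_zero_iff (I.ch x.1).toCore (a x.1 x.2) (hadm x.1 x.2).1 (hadm x.1 x.2).2 y
  algebraMap_mem_iff := fun x c =>
    algebraMap_mem_circleRing_iff (I.ch x.1).toCore (a x.1 x.2) (hadm x.1 x.2).1
      (hadm x.1 x.2).2 c
  res_algebraMap := fun x c hc hc' =>
    circleRes_algebraMap (I.ch x.1).toCore (a x.1 x.2) (hadm x.1 x.2).1 (hadm x.1 x.2).2 c hc hc'
  approx := fun x => I.approx x.1 (a x.1 x.2) (hadm x.1 x.2).1 (hadm x.1 x.2).2
  O_injective := I.levelRing_injective n a hadm hanti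
  O_ne := fun x v =>
    (I.ch x.1).circleRing_ne_O (a x.1 x.2) (hadm x.1 x.2).1 (hadm x.1 x.2).2 v
  conservation := fun e i =>
    circle_conservation (I.ch e).toCore (a e i) (hadm e i).1 (hadm e i).2
  match_first := fun e h0 =>
    (I.ch e).match_first (a e ⟨0, h0⟩) (hadm e _).1 (hadm e _).2
  unit_first := fun e h0 =>
    (I.ch e).unit_first (a e ⟨0, h0⟩) (hadm e _).1 (hadm e _).2
  match_mid := fun e i hi =>
    matchMidAt (I.ch e).toCore (a e i) (hadm e i).1 (hadm e i).2 (a e ⟨i.1 + 1, hi⟩)
      (hadm e _).1 (hadm e _).2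
      (hanti e (Fin.mk_lt_mk.mpr (Nat.lt_succ_self i.1) : i < ⟨i.1 + 1, hi⟩))
  unit_mid := fun e i hi =>
    unitMidAt (I.ch e).toCore (a e i) (hadm e i).1 (hadm e i).2 (a e ⟨i.1 + 1, hi⟩)
      (hadm e _).1 (hadm e _).2
      (hanti e (Fin.mk_lt_mk.mpr (Nat.lt_succ_self i.1) : i < ⟨i.1 + 1, hi⟩))
  match_last := fun e i _ => (I.ch e).match_last (a e i) (hadm e i).1 (hadm e i).2
  unit_last := fun e i _ => (I.ch e).unit_last (a e i) (hadm e i).1 (hadm e i).2

/-- **The chain provider** of a family of annulus charts. -/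
def chainProvider : ChainProvider S₀ where
  u := fun e => (I.ch e).u
  adm := I.adm
  adm_ne := fun e a h => gauge_ne_zero (C := (I.ch e).toCore) h.1
  adm_tube := fun e P hP => by
    obtain ⟨-, h2, h3⟩ := isValueAt_evalAt_u (I.ch e).toCore hP
    exact ⟨h2, h3⟩
  chain := fun n a hadm hanti =>
    ⟨I.chainFamily n a hadm hanti, rfl, rfl, fun _ _ => rfl⟩

@[simp] theorem chainProvider_u (e : ν₀) : I.chainProvider.u e = (I.ch e).u := rfl

theorem chainProvider_adm (e : ν₀) (a : K) :
    I.chainProvider.adm e a ↔
      A.valuation (I.ch e).thick < A.valuation a ∧ A.valuation a < 1 := Iff.rfl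

end CircleInputsN

end Fermat.Agent.BR3.CircleN
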