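import Mathlib
import Fermat.Agent.BR3.CircleN.Assembly
import Fermat.Agent.BR.S0.AnnulusChartOfLevels
import Fermat.Agent.BR.S0.AnnulusDense

/-!
# Program C (S36), node A9, part 3: the finite-level producer of the annulus charts, for a setup
with ANY family of components

`BR/S0/AnnulusChartOfLevels` (helper5) with the two-component field `comp` of `BranchData`
replaced by `sep_comp` (the other components are separated from the tube of the node by a
function):

* `BranchDataN S₀ e L` : the branch data of a family of levels `L : S0.AnnulusLevels A (tube S₀ e) ι`;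
  `BranchDataN.ofBranchData` : every `BranchData` is a `BranchDataN`;
* `BranchDataN.annulusChartNOfLevels : AnnulusChartN S₀ e`, with `u = L.u`, `thick = L.thick`
  by `rfl`;
* `circleInputsNOfLevels hA L X sep : CircleInputsN S₀` ((C6) is
  `S0.AnnulusDense.approxAt_of_annulusLevels`) and
  `chainProviderOfLevelsN hA L X sep : Refine.ChainProvider S₀`, `chainProviderOfLevelsN_u` (`rfl`),
  `exists_chainProviderN_of_levels` (annulus coordinates fixed by a group action).
-/

set_option autoImplicit false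
set_option linter.unusedSectionVars false

noncomputable section

namespace Fermat.Agent.BR3.CircleN

open AlgebraicCurve IsLocalRing Fermat.Agent.Red Fermat.Agent.BR.Centre Fermat.Agent.BR.SS
  Fermat.Agent.BR.Refine Fermat.Agent.BR.Circle Fermat.Agent.BR.S0
open Fermat.Agent.BR.S0.AnnulusChartOfLevels (ord_res_eq_one ord_res_unit_eq_zero)
open Fermat.Agent.BR.S0.AnnulusChartOfLevels.BranchData (res_const_eq_zero
  adicValuation_res_const_le_one res_eq_zero_of_mem_nonunits tubeUnit_of_level)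

/-! ### The branch data of the levels -/

variable {K : Type} {F : Type*} [Field K] [Field F] [Algebra K F]
  {A : ValuationSubring K} [IsAlgClosed (ResidueField A)]
  {ι₀ : Type} {Ft₀ : ι₀ → Type} [∀ v, Field (Ft₀ v)] [∀ v, Algebra (ResidueField A) (Ft₀ v)]
  {ν₀ : Type}

/-- The branch data of a family of levels of the tube of the node `e`: the levels lie in the
valuation rings of the two components through `e`, their non-units vanish at both branches, `v`
vanishes identically on `src e`, `u` on `tgt e`, and each branch has a uniformizer which is the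
reduction of an element of some level. -/
structure BranchDataN (S₀ : SemistableSetup (F := F) A (residue A) ι₀ Ft₀ ν₀) (e : ν₀)
    {ι : Type*} (L : AnnulusLevels A (tube S₀ e) ι) : Prop where
  le₁ : ∀ i, ∀ y ∈ (L.level i).R, y ∈ S₀.O (S₀.src e)
  le₂ : ∀ i, ∀ y ∈ (L.level i).R, y ∈ S₀.O (S₀.tgt e)
  /-- non-units vanish at the first branch -/
  branch₁ : ∀ i, ∀ y : (L.level i).R, ¬ IsUnit y →
    (S₀.s₁ e).adicValuation (S₀.res (S₀.src e) ⟨y, le₁ i y y.2⟩) < 1
  /-- non-units vanish at the second branch -/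
  branch₂ : ∀ i, ∀ y : (L.level i).R, ¬ IsUnit y →
    (S₀.s₂ e).adicValuation (S₀.res (S₀.tgt e) ⟨y, le₂ i y y.2⟩) < 1
  /-- `v` vanishes identically on the component `src e` -/
  v_src : L.v ∈ (S₀.O (S₀.src e)).nonunits
  /-- `u` vanishes identically on the component `tgt e` -/
  u_tgt : L.u ∈ (S₀.O (S₀.tgt e)).nonunits
  /-- some element of some level reduces to a uniformizer at the first branch -/
  unif₁ : ∃ i, ∃ t : (L.level i).R,
    (S₀.s₁ e).ord (S₀.res (S₀.src e) ⟨t, le₁ i t t.2⟩) = 1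
  /-- some element of some level reduces to a uniformizer at the second branch -/
  unif₂ : ∃ i, ∃ t : (L.level i).R,
    (S₀.s₂ e).ord (S₀.res (S₀.tgt e) ⟨t, le₂ i t t.2⟩) = 1
  /-- the other components are separated from the tube of the node -/
  sep_comp : ∀ w, w ≠ S₀.src e → w ≠ S₀.tgt e → SepComp S₀ e w

namespace BranchDataN

variable {S₀ : SemistableSetup (F := F) A (residue A) ι₀ Ft₀ ν₀} {e : ν₀} {ι : Type*}
  {L : AnnulusLevels A (tube S₀ e) ι} (X : BranchDataN S₀ e L)

/-- the reduction on the component `src e`, restricted to the level `i` -/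
def red₁ (i : ι) : (L.level i).R →+* Ft₀ (S₀.src e) :=
  (S₀.res (S₀.src e)).comp (Subring.inclusion (fun y hy => X.le₁ i y hy :
    (L.level i).R ≤ (S₀.O (S₀.src e)).toSubring))

/-- the reduction on the component `tgt e`, restricted to the level `i` -/
def red₂ (i : ι) : (L.level i).R →+* Ft₀ (S₀.tgt e) :=
  (S₀.res (S₀.tgt e)).comp (Subring.inclusion (fun y hy => X.le₂ i y hy :
    (L.level i).R ≤ (S₀.O (S₀.tgt e)).toSubring))

theorem red₁_apply (i : ι) (y : (L.level i).R) :
    X.red₁ i y = S₀.res (S₀.src e) ⟨y, X.le₁ i y y.2⟩ := rfl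

theorem red₂_apply (i : ι) (y : (L.level i).R) :
    X.red₂ i y = S₀.res (S₀.tgt e) ⟨y, X.le₂ i y y.2⟩ := rfl

/-- the reductions of the functions of a level are regular at the first branch -/
theorem adicValuation_red₁_le_one (i : ι) (y : (L.level i).R) :
    (S₀.s₁ e).adicValuation (X.red₁ i y) ≤ 1 := by
  obtain ⟨a, ha, hnu⟩ := (L.level i).residue y
  have h1 := X.branch₁ i _ hnu
  have h2 : X.red₁ i y = X.red₁ i (y - ⟨algebraMap K F a, ha⟩) +
      X.red₁ i ⟨algebraMap K F a, ha⟩ := by
    rw [← map_add, sub_add_cancel]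
  rw [h2]
  refine (Valuation.map_add _ _ _).trans (max_le (le_of_lt h1) ?_)
  exact adicValuation_res_const_le_one (S₀ := S₀) (S₀.src e) (S₀.s₁ e) a (X.le₁ i _ ha)

/-- the reductions of the functions of a level are regular at the second branch -/
theorem adicValuation_red₂_le_one (i : ι) (y : (L.level i).R) :
    (S₀.s₂ e).adicValuation (X.red₂ i y) ≤ 1 := by
  obtain ⟨a, ha, hnu⟩ := (L.level i).residue y
  have h1 := X.branch₂ i _ hnu
  have h2 : X.red₂ i y = X.red₂ i (y - ⟨algebraMap K F a, ha⟩) +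
      X.red₂ i ⟨algebraMap K F a, ha⟩ := by
    rw [← map_add, sub_add_cancel]
  rw [h2]
  refine (Valuation.map_add _ _ _).trans (max_le (le_of_lt h1) ?_)
  exact adicValuation_res_const_le_one (S₀ := S₀) (S₀.tgt e) (S₀.s₂ e) a (X.le₂ i _ ha)

/-- the three generators of the maximal ideal of the level `i` -/
def piR (_ : BranchDataN S₀ e L) (i : ι) : (L.level i).R :=
  ⟨algebraMap K F (L.level i).ϖ, (L.level i).unif_memR⟩

def uR (_ : BranchDataN S₀ e L) (i : ι) : (L.level i).R := ⟨L.u, (L.level i).u_mem⟩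

def vR (_ : BranchDataN S₀ e L) (i : ι) : (L.level i).R := ⟨L.v, (L.level i).v_mem⟩

theorem uR_not_isUnit (i : ι) : ¬ IsUnit (X.uR i) := fun h =>
  (L.level i).prime1.ne_top (Ideal.eq_top_of_isUnit_mem _ (L.level i).u_mem_p1 h)

theorem vR_not_isUnit (i : ι) : ¬ IsUnit (X.vR i) := fun h =>
  (L.level i).prime2.ne_top (Ideal.eq_top_of_isUnit_mem _ (L.level i).v_mem_p2 h)

theorem red₁_piR (i : ι) : X.red₁ i (X.piR i) = 0 :=
  res_const_eq_zero (S₀ := S₀) (S₀.src e) (L.level i).unif_lt _

theorem red₂_piR (i : ι) : X.red₂ i (X.piR i) = 0 :=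
  res_const_eq_zero (S₀ := S₀) (S₀.tgt e) (L.level i).unif_lt _

theorem red₁_vR (i : ι) : X.red₁ i (X.vR i) = 0 :=
  res_eq_zero_of_mem_nonunits (S₀ := S₀) (S₀.src e) X.v_src _

theorem red₂_uR (i : ι) : X.red₂ i (X.uR i) = 0 :=
  res_eq_zero_of_mem_nonunits (S₀ := S₀) (S₀.tgt e) X.u_tgt _

include X in
theorem nonempty : Nonempty ι := by
  obtain ⟨i, -⟩ := L.const 0
  exact ⟨i⟩

include X in
/-- `u` is integral on the component `src e` -/
theorem u_src : L.u ∈ S₀.O (S₀.src e) := by
  obtain ⟨i⟩ := X.nonempty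
  exact X.le₁ i L.u (L.level i).u_mem

include X in
/-- the residue of `u` on `src e` has a simple zero at the branch `s₁ e` -/
theorem ord_src : (S₀.s₁ e).ord (S₀.res (S₀.src e) ⟨L.u, X.u_src⟩) = 1 := by
  obtain ⟨i, t, ht⟩ := X.unif₁
  exact ord_res_eq_one (X.red₁ i) (S₀.s₁ e) (X.adicValuation_red₁_le_one i)
    (fun y hy => X.branch₁ i y hy) (X.piR i) (X.uR i) (X.vR i) (L.level i).nonunit_mem
    (X.red₁_piR i) (X.red₁_vR i) (X.uR_not_isUnit i) t ht

include X in
theorem u_ne_zero : L.u ≠ 0 := by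
  obtain ⟨i⟩ := X.nonempty
  intro h0
  apply (L.level i).u_notMem_p2
  have : (⟨L.u, (L.level i).u_mem⟩ : (L.level i).R) = 0 := Subtype.ext h0
  rw [this]
  exact Ideal.zero_mem _

include X in
theorem eps_ne_zero : L.ε₀ ≠ 0 := by
  obtain ⟨i⟩ := X.nonempty
  intro h0
  have huv := L.uv
  rw [h0, smul_zero] at huv
  rcases mul_eq_zero.mp huv with h | h
  · exact X.u_ne_zero h
  · apply (L.level i).v_notMem_p1
    have : (⟨L.v, (L.level i).v_mem⟩ : (L.level i).R) = 0 := Subtype.ext h
    rw [this]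
    exact Ideal.zero_mem _

include X in
/-- `thick / u = v / ε₀` -/
theorem thick_smul_inv_eq : L.thick • L.u⁻¹ = L.v * L.ε₀⁻¹ := by
  have hu0 := X.u_ne_zero
  have hε0 := X.eps_ne_zero
  have huv := L.uv
  rw [Algebra.smul_def] at huv ⊢
  field_simp
  exact huv.symm

include X in
/-- `thick / u` is integral on the component `tgt e` -/
theorem v_tgt : L.thick • L.u⁻¹ ∈ S₀.O (S₀.tgt e) := by
  obtain ⟨i⟩ := X.nonempty
  rw [X.thick_smul_inv_eq]
  exact X.le₂ i _ ((L.level i).R.mul_mem (L.level i).v_mem (L.level i).ε₀_inv_mem)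

include X in
/-- the residue of `thick / u` on `tgt e` has a simple zero at the branch `s₂ e` -/
theorem ord_tgt :
    (S₀.s₂ e).ord (S₀.res (S₀.tgt e) ⟨L.thick • L.u⁻¹, X.v_tgt⟩) = 1 := by
  obtain ⟨i, t, ht⟩ := X.unif₂
  have hmax : ∀ x : (L.level i).R, ¬ IsUnit x → x ∈ Ideal.span {X.piR i, X.vR i, X.uR i} := by
    intro x hx
    have := (L.level i).nonunit_mem x hx
    rwa [show ({X.piR i, X.vR i, X.uR i} : Set (L.level i).R) = {X.piR i, X.uR i, X.vR i} from by
      ext y; simp only [Set.mem_insert_iff, Set.mem_singleton_iff]; tauto]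
  have hv1 : (S₀.s₂ e).ord (X.red₂ i (X.vR i)) = 1 :=
    ord_res_eq_one (X.red₂ i) (S₀.s₂ e) (X.adicValuation_red₂_le_one i)
      (fun y hy => X.branch₂ i y hy) (X.piR i) (X.vR i) (X.uR i) hmax
      (X.red₂_piR i) (X.red₂_uR i) (X.vR_not_isUnit i) t ht
  -- the unit `ε₀⁻¹`
  let εi : (L.level i).R := ⟨L.ε₀⁻¹, (L.level i).ε₀_inv_mem⟩
  let ε : (L.level i).R := ⟨L.ε₀, (L.level i).ε₀_mem⟩
  have hεu : IsUnit εi := by
    refine IsUnit.of_mul_eq_one ε ?_
    apply Subtype.ext
    simp only [εi, ε, Subring.coe_mul, Subring.coe_one]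
    exact inv_mul_cancel₀ X.eps_ne_zero
  have hε0 : (S₀.s₂ e).ord (X.red₂ i εi) = 0 :=
    ord_res_unit_eq_zero (X.red₂ i) (S₀.s₂ e) (X.adicValuation_red₂_le_one i) hεu
  have hprod : S₀.res (S₀.tgt e) ⟨L.thick • L.u⁻¹, X.v_tgt⟩ =
      X.red₂ i (X.vR i) * X.red₂ i εi := by
    rw [← map_mul, X.red₂_apply]
    congr 1
    apply Subtype.ext
    simp only [vR, εi, Subring.coe_mul]
    exact X.thick_smul_inv_eq
  have hv0 : X.red₂ i (X.vR i) ≠ 0 := by
    intro h0
    rw [h0, Place.ord_zero] at hv1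
    exact zero_ne_one hv1
  have hεne : X.red₂ i εi ≠ 0 := by
    intro h0
    have h1 := hεu.map (X.red₂ i)
    rw [h0] at h1
    exact not_isUnit_zero h1
  rw [hprod, Place.ord_mul _ hv0 hεne, hv1, hε0, add_zero]

include X in
/-- **the strong form of the unit factor**: a function of a level which is `≡ 1` modulo the
maximal ideal is `≡ 1` on the tube and at the two branches of the node -/
theorem nodeUnit_of_level (i : ι) {ε : F} (hε : ε ∈ (L.level i).R)
    (hnu : ¬ IsUnit ((⟨ε, hε⟩ : (L.level i).R) - 1)) : NodeUnit S₀ e ε := by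
  refine ⟨tubeUnit_of_level L i hε hnu, ⟨X.le₁ i ε hε, ?_⟩, ⟨X.le₂ i ε hε, ?_⟩⟩
  · have h1 := X.branch₁ i _ hnu
    have h2 : S₀.res (S₀.src e) ⟨(((⟨ε, hε⟩ : (L.level i).R) - 1 : (L.level i).R) : F),
        X.le₁ i _ ((⟨ε, hε⟩ : (L.level i).R) - 1 : (L.level i).R).2⟩ =
        S₀.res (S₀.src e) ⟨ε, X.le₁ i ε hε⟩ -
          algebraMap (ResidueField A) (Ft₀ (S₀.src e)) 1 := by
      rw [map_one, ← map_one (S₀.res (S₀.src e)), ← map_sub]
      rfl
    rw [h2] at h1
    exact h1
  · have h1 := X.branch₂ i _ hnu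
    have h2 : S₀.res (S₀.tgt e) ⟨(((⟨ε, hε⟩ : (L.level i).R) - 1 : (L.level i).R) : F),
        X.le₂ i _ ((⟨ε, hε⟩ : (L.level i).R) - 1 : (L.level i).R).2⟩ =
        S₀.res (S₀.tgt e) ⟨ε, X.le₂ i ε hε⟩ -
          algebraMap (ResidueField A) (Ft₀ (S₀.tgt e)) 1 := by
      rw [map_one, ← map_one (S₀.res (S₀.tgt e)), ← map_sub]
      rfl
    rw [h2] at h1
    exact h1

/-- **The contract `AnnulusChartN S₀ e`** from the K-level core of the levels, the finite-level
form of the factorisation and the branch data. -/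
def annulusChartNOfCore (C : AnnulusCore A (tube S₀ e)) (hu : C.u = L.u)
    (hthick : C.thick = L.thick)
    (hfs : ∀ y : F, y ≠ 0 → ∃ (S : Finset (Place K F)) (n : Place K F → ℤ) (b : ℤ) (c : K),
      (∀ Q ∈ S, Q ∈ tube S₀ e) ∧ c ≠ 0 ∧ ∃ (i : ι)
      (h : y * (c • (L.u ^ b * ∏ Q ∈ S, (L.u - algebraMap K F (evalAt Q L.u)) ^ n Q))⁻¹ ∈
          (L.level i).R),
        ¬ IsUnit ((⟨_, h⟩ : (L.level i).R) - 1)) :
    AnnulusChartN S₀ e where
  u := C.u
  thick := C.thick
  thick_ne := C.thick_ne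
  thick_lt := C.thick_lt
  val_mem := C.val_mem
  bij := C.bij
  simple := C.simple
  factor := fun y hy => by
    obtain ⟨S, n, b, c, hS, hc, i, h, hnu⟩ := hfs y hy
    refine ⟨S, n, b, c, hS, hc, ?_⟩
    rw [hu]
    exact X.nodeUnit_of_level i h hnu
  u_src := hu ▸ X.u_src
  ord_src := by
    have key : ∀ (x : F) (hx : x ∈ S₀.O (S₀.src e)), x = L.u →
        (S₀.s₁ e).ord (S₀.res (S₀.src e) ⟨x, hx⟩) = 1 := by
      intro x hx hxu
      subst hxu
      exact X.ord_src
    exact key C.u _ hu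
  v_tgt := by rw [hu, hthick]; exact X.v_tgt
  ord_tgt := by
    have key : ∀ (x : F) (hx : x ∈ S₀.O (S₀.tgt e)), x = L.thick • L.u⁻¹ →
        (S₀.s₂ e).ord (S₀.res (S₀.tgt e) ⟨x, hx⟩) = 1 := by
      intro x hx hxu
      subst hxu
      exact X.ord_tgt
    exact key _ _ (by rw [hu, hthick])
  sep_comp := X.sep_comp

/-- **The producer of the contract**: `AnnulusChartN S₀ e` from a directed family of finite levels
of the tube of `e` (`AnnulusLevels.core`, `AnnulusLevels.factor_strong` of `BR/S0/AnnulusDescent`)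
and its branch data. -/
def annulusChartNOfLevels : AnnulusChartN S₀ e :=
  X.annulusChartNOfCore L.core rfl rfl L.factor_strong

@[simp] theorem annulusChartNOfLevels_u : X.annulusChartNOfLevels.u = L.u := rfl

@[simp] theorem annulusChartNOfLevels_thick : X.annulusChartNOfLevels.thick = L.thick := rfl

theorem annulusChartNOfLevels_toCore : X.annulusChartNOfLevels.toCore.u = L.core.u := rfl

end BranchDataN

/-- Every two-component branch data is a branch data in the present sense. -/
theorem BranchDataN.ofBranchData {S₀ : SemistableSetup (F := F) A (residue A) ι₀ Ft₀ ν₀} {e : ν₀}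
    {ι : Type*} {L : AnnulusLevels A (tube S₀ e) ι}
    (X : AnnulusChartOfLevels.BranchData S₀ e L) : BranchDataN S₀ e L where
  le₁ := X.le₁
  le₂ := X.le₂
  branch₁ := X.branch₁
  branch₂ := X.branch₂
  v_src := X.v_src
  u_tgt := X.u_tgt
  unif₁ := X.unif₁
  unif₂ := X.unif₂
  sep_comp := fun w h1 h2 => by
    rcases X.comp w with h | h
    · exact absurd h h1
    · exact absurd h h2

/-! ### The chain provider from the level data -/

section Provider

variable {S₀ : SemistableSetup (F := F) A (residue A) ι₀ Ft₀ ν₀} {ι : ν₀ → Type*}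

/-- **The inputs of the chain provider from the level data**: levels and branch data at every
node, and the separation of the nodes. -/
def circleInputsNOfLevels (hA : IsRankOne A) (L : ∀ e, AnnulusLevels A (tube S₀ e) (ι e))
    (X : ∀ e, BranchDataN S₀ e (L e)) (sep : ∀ e e', e ≠ e' → Separated S₀ e e') :
    CircleInputsN S₀ where
  ch := fun e => (X e).annulusChartNOfLevels
  sep := sep
  approx := fun e a ha1 ha2 =>
    AnnulusDense.approxAt_of_annulusLevels hA (L e) (X e).annulusChartNOfLevels.toCore rfl rfl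
      a ha1 ha2

@[simp] theorem circleInputsNOfLevels_ch_u (hA : IsRankOne A)
    (L : ∀ e, AnnulusLevels A (tube S₀ e) (ι e)) (X : ∀ e, BranchDataN S₀ e (L e))
    (sep : ∀ e e', e ≠ e' → Separated S₀ e e') (e : ν₀) :
    ((circleInputsNOfLevels hA L X sep).ch e).u = (L e).u := rfl

/-- **THE CHAIN PROVIDER FROM THE LEVEL DATA**, for any family of components. -/
def chainProviderOfLevelsN (hA : IsRankOne A) (L : ∀ e, AnnulusLevels A (tube S₀ e) (ι e))
    (X : ∀ e, BranchDataN S₀ e (L e)) (sep : ∀ e e', e ≠ e' → Separated S₀ e e') :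
    ChainProvider S₀ :=
  (circleInputsNOfLevels hA L X sep).chainProvider

/-- The annulus coordinate of the provider at the node `e` is the coordinate of the levels. -/
@[simp] theorem chainProviderOfLevelsN_u (hA : IsRankOne A)
    (L : ∀ e, AnnulusLevels A (tube S₀ e) (ι e)) (X : ∀ e, BranchDataN S₀ e (L e))
    (sep : ∀ e e', e ≠ e' → Separated S₀ e e') (e : ν₀) :
    (chainProviderOfLevelsN hA L X sep).u e = (L e).u := rfl

/-- A chain provider whose annulus coordinates are fixed by the maps `act σ`, `σ` satisfying `I`,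
as soon as the coordinates `(L e).u` of the levels are. -/
theorem exists_chainProviderN_of_levels (hA : IsRankOne A)
    (L : ∀ e, AnnulusLevels A (tube S₀ e) (ι e)) (X : ∀ e, BranchDataN S₀ e (L e))
    (sep : ∀ e e', e ≠ e' → Separated S₀ e e')
    {G : Type*} (I : G → Prop) (act : G → F → F)
    (hu : ∀ σ, I σ → ∀ e, act σ (L e).u = (L e).u) :
    ∃ Pr : ChainProvider S₀, ∀ σ, I σ → ∀ e, act σ (Pr.u e) = Pr.u e :=
  ⟨chainProviderOfLevelsN hA L X sep, fun σ hσ e => hu σ hσ e⟩

end Provider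

end Fermat.Agent.BR3.CircleN
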