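import Mathlib
import Fermat.Agent.BR3.CircleN.OfLevels
import Fermat.Agent.BR3.MultiInput
import Fermat.Agent.BR.S0.BranchDataOfModels
import Fermat.Agent.BR.Inst.BranchDataInst

/-!
# Program C (S36), node A9, part 4: the branch data of the levels from the global models at a
crossing, for a setup with ANY family of components

`BR/S0/BranchDataOfModels` (helper5) and `BR/Inst/BranchDataInst` with the two-component
hypothesis `comp` replaced by `sep_comp` (the other components are separated from the tube of the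
node by a function):

* `branchDataN_of_models`, `branchDataN_of_models_of_red` : `BranchDataN S₀ e L` when the levels
  are the local rings of global models `M i : S0.CrossingModel …` at the crossing,
  `(L.level i).R = (M i).loc`;
* `branchDataN_levelsSwap`, `branchDataN_levelsSwap_of_red` : the same for the swapped level data
  `H.levelsSwap` of `H : LevelsAnnulusCore.AnnulusModels …` (helper8);
* `annulusChartN_levelsSwap`, with `u = v` by `rfl`;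
* the literal form for `S₀ = I.toSetup`, `I : BR3.MultiInput A (residue A) ι Ft ν`:
  `branchDataN_levelsSwap_toSetup_of_red` (stated with `(I.C (I.src e)).O`, …, and the tube
  `I.tube ⟨I.src e, I.s₁ e⟩`).
-/

set_option autoImplicit false
set_option linter.unusedSectionVars false
set_option linter.style.haveILetI false

noncomputable section

namespace Fermat.Agent.BR3.CircleN

open AlgebraicCurve IsLocalRing Fermat.Agent.Red Fermat.Agent.BR.Centre Fermat.Agent.BR.SS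
  Fermat.Agent.BR.Refine Fermat.Agent.BR.Circle Fermat.Agent.BR.S0
  Fermat.Agent.BR.S0.BranchDataOfModels Fermat.Agent.BR.Inst.LevelsAnnulusCore

section Setup

variable {K : Type} {F : Type*} [Field K] [Field F] [Algebra K F]
  {A : ValuationSubring K} [IsAlgClosed (ResidueField A)]
  {ι₀ : Type} {Ft₀ : ι₀ → Type} [∀ v, Field (Ft₀ v)] [∀ v, Algebra (ResidueField A) (Ft₀ v)]
  {ν₀ : Type}
  {S₀ : SemistableSetup (F := F) A (residue A) ι₀ Ft₀ ν₀} {e : ν₀} {ι : Type*}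
  {L : AnnulusLevels A (tube S₀ e) ι} {C : ι → Subring F} {ϖ : ι → K}

/-- **The branch data of the levels from the global models at the crossing.** -/
theorem branchDataN_of_models
    (M : ∀ i, CrossingModel A (residue A) (S₀.O (S₀.src e)) (S₀.O (S₀.tgt e))
      (S₀.res (S₀.src e)) (S₀.res (S₀.tgt e)) (S₀.s₁ e) (S₀.s₂ e) (tube S₀ e) (C i) (ϖ i))
    (hR : ∀ i, (L.level i).R = (M i).loc)
    (v_src : L.v ∈ (S₀.O (S₀.src e)).nonunits) (u_tgt : L.u ∈ (S₀.O (S₀.tgt e)).nonunits)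
    (unif₁ : ∃ i, ∃ t : C i,
      (S₀.s₁ e).ord (S₀.res (S₀.src e) ⟨t, (M i).le₁ t t.2⟩) = 1)
    (unif₂ : ∃ i, ∃ t : C i,
      (S₀.s₂ e).ord (S₀.res (S₀.tgt e) ⟨t, (M i).le₂ t t.2⟩) = 1)
    (sep_comp : ∀ w, w ≠ S₀.src e → w ≠ S₀.tgt e → SepComp S₀ e w) : BranchDataN S₀ e L where
  le₁ i y hy := (M i).loc_le₁ (hres0_setup (S₀ := S₀) (S₀.src e)) y (hR i ▸ hy)
  le₂ i y hy := (M i).loc_le₂ (hres0_setup (S₀ := S₀) (S₀.tgt e)) y (hR i ▸ hy)
  branch₁ i y hy := (M i).loc_branch₁ ⟨(y : F), hR i ▸ y.2⟩ (not_isUnit_of_subring_eq (hR i) hy) _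
  branch₂ i y hy := (M i).loc_branch₂ ⟨(y : F), hR i ▸ y.2⟩ (not_isUnit_of_subring_eq (hR i) hy) _
  v_src := v_src
  u_tgt := u_tgt
  unif₁ := by
    obtain ⟨i, t, ht⟩ := unif₁
    exact ⟨i, ⟨(t : F), (hR i).symm ▸ (M i).le_loc t.2⟩, ht⟩
  unif₂ := by
    obtain ⟨i, t, ht⟩ := unif₂
    exact ⟨i, ⟨(t : F), (hR i).symm ▸ (M i).le_loc t.2⟩, ht⟩
  sep_comp := sep_comp

/-- **The branch data of the levels from the global models**, the two uniformizers being produced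
from reductions of some models onto Dedekind charts of the two components. -/
theorem branchDataN_of_models_of_red
    (M : ∀ i, CrossingModel A (residue A) (S₀.O (S₀.src e)) (S₀.O (S₀.tgt e))
      (S₀.res (S₀.src e)) (S₀.res (S₀.tgt e)) (S₀.s₁ e) (S₀.s₂ e) (tube S₀ e) (C i) (ϖ i))
    (hR : ∀ i, (L.level i).R = (M i).loc)
    (v_src : L.v ∈ (S₀.O (S₀.src e)).nonunits) (u_tgt : L.u ∈ (S₀.O (S₀.tgt e)).nonunits)
    {Dk₁ : Type*} [CommRing Dk₁] [IsDedekindDomain Dk₁] [Algebra Dk₁ (Ft₀ (S₀.src e))]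
    [IsFractionRing Dk₁ (Ft₀ (S₀.src e))]
    {Dk₂ : Type*} [CommRing Dk₂] [IsDedekindDomain Dk₂] [Algebra Dk₂ (Ft₀ (S₀.tgt e))]
    [IsFractionRing Dk₂ (Ft₀ (S₀.tgt e))]
    (i₁ : ι) (red₁ : C i₁ →+* Dk₁)
    (hred₁ : ∀ x : C i₁, algebraMap Dk₁ (Ft₀ (S₀.src e)) (red₁ x) =
      S₀.res (S₀.src e) ⟨x, (M i₁).le₁ x x.2⟩)
    (hsurj₁ : Function.Surjective red₁)
    (i₂ : ι) (red₂ : C i₂ →+* Dk₂)
    (hred₂ : ∀ x : C i₂, algebraMap Dk₂ (Ft₀ (S₀.tgt e)) (red₂ x) =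
      S₀.res (S₀.tgt e) ⟨x, (M i₂).le₂ x x.2⟩)
    (hsurj₂ : Function.Surjective red₂)
    (sep_comp : ∀ w, w ≠ S₀.src e → w ≠ S₀.tgt e → SepComp S₀ e w) : BranchDataN S₀ e L :=
  branchDataN_of_models M hR v_src u_tgt
    ⟨i₁, exists_mem_ord_res_eq_one (M i₁).le₁ (S₀.s₁ e) (M i₁).regular₁ red₁ hred₁ hsurj₁⟩
    ⟨i₂, exists_mem_ord_res_eq_one (M i₂).le₂ (S₀.s₂ e) (M i₂).regular₂ red₂ hred₂ hsurj₂⟩
    sep_comp

variable {K' : ι → Subfield K} {P1 P2 : ∀ i, Ideal (C i)} {i₀ : ι} {u v ε₀ : F} {thick : K}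

/-- **The branch data of the swapped level data** of a family of global models at the crossing
`e`. -/
theorem branchDataN_levelsSwap
    (H : AnnulusModels A (residue A) (S₀.O (S₀.src e)) (S₀.O (S₀.tgt e))
      (S₀.res (S₀.src e)) (S₀.res (S₀.tgt e)) (S₀.s₁ e) (S₀.s₂ e) (tube S₀ e) C ϖ K' P1 P2 i₀
      u v ε₀ thick)
    (unif₁ : ∃ i, ∃ t : C i,
      (S₀.s₁ e).ord (S₀.res (S₀.src e) ⟨t, (H.model i).le₁ t t.2⟩) = 1)
    (unif₂ : ∃ i, ∃ t : C i,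
      (S₀.s₂ e).ord (S₀.res (S₀.tgt e) ⟨t, (H.model i).le₂ t t.2⟩) = 1)
    (sep_comp : ∀ w, w ≠ S₀.src e → w ≠ S₀.tgt e → SepComp S₀ e w) :
    BranchDataN S₀ e H.levelsSwap :=
  branchDataN_of_models (L := H.levelsSwap) H.model (fun _ => rfl) H.u_mem₁ H.v_mem₂ unif₁ unif₂
    sep_comp

/-- **The branch data of the swapped level data**, the uniformizers coming from reductions of some
models onto Dedekind charts of the two components. -/
theorem branchDataN_levelsSwap_of_red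
    (H : AnnulusModels A (residue A) (S₀.O (S₀.src e)) (S₀.O (S₀.tgt e))
      (S₀.res (S₀.src e)) (S₀.res (S₀.tgt e)) (S₀.s₁ e) (S₀.s₂ e) (tube S₀ e) C ϖ K' P1 P2 i₀
      u v ε₀ thick)
    {Dk₁ : Type*} [CommRing Dk₁] [IsDedekindDomain Dk₁] [Algebra Dk₁ (Ft₀ (S₀.src e))]
    [IsFractionRing Dk₁ (Ft₀ (S₀.src e))]
    {Dk₂ : Type*} [CommRing Dk₂] [IsDedekindDomain Dk₂] [Algebra Dk₂ (Ft₀ (S₀.tgt e))]
    [IsFractionRing Dk₂ (Ft₀ (S₀.tgt e))]
    (i₁ : ι) (red₁ : C i₁ →+* Dk₁)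
    (hred₁ : ∀ x : C i₁, algebraMap Dk₁ (Ft₀ (S₀.src e)) (red₁ x) =
      S₀.res (S₀.src e) ⟨x, (H.model i₁).le₁ x x.2⟩)
    (hsurj₁ : Function.Surjective red₁)
    (i₂ : ι) (red₂ : C i₂ →+* Dk₂)
    (hred₂ : ∀ x : C i₂, algebraMap Dk₂ (Ft₀ (S₀.tgt e)) (red₂ x) =
      S₀.res (S₀.tgt e) ⟨x, (H.model i₂).le₂ x x.2⟩)
    (hsurj₂ : Function.Surjective red₂)
    (sep_comp : ∀ w, w ≠ S₀.src e → w ≠ S₀.tgt e → SepComp S₀ e w) :
    BranchDataN S₀ e H.levelsSwap :=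
  branchDataN_of_models_of_red (L := H.levelsSwap) H.model (fun _ => rfl) H.u_mem₁ H.v_mem₂
    i₁ red₁ hred₁ hsurj₁ i₂ red₂ hred₂ hsurj₂ sep_comp

/-- **The annulus chart of the node `e`** from a family of global models at the crossing. -/
def annulusChartN_levelsSwap
    (H : AnnulusModels A (residue A) (S₀.O (S₀.src e)) (S₀.O (S₀.tgt e))
      (S₀.res (S₀.src e)) (S₀.res (S₀.tgt e)) (S₀.s₁ e) (S₀.s₂ e) (tube S₀ e) C ϖ K' P1 P2 i₀
      u v ε₀ thick)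
    (unif₁ : ∃ i, ∃ t : C i,
      (S₀.s₁ e).ord (S₀.res (S₀.src e) ⟨t, (H.model i).le₁ t t.2⟩) = 1)
    (unif₂ : ∃ i, ∃ t : C i,
      (S₀.s₂ e).ord (S₀.res (S₀.tgt e) ⟨t, (H.model i).le₂ t t.2⟩) = 1)
    (sep_comp : ∀ w, w ≠ S₀.src e → w ≠ S₀.tgt e → SepComp S₀ e w) : AnnulusChartN S₀ e :=
  (branchDataN_levelsSwap H unif₁ unif₂ sep_comp).annulusChartNOfLevels

@[simp] theorem annulusChartN_levelsSwap_u
    (H : AnnulusModels A (residue A) (S₀.O (S₀.src e)) (S₀.O (S₀.tgt e))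
      (S₀.res (S₀.src e)) (S₀.res (S₀.tgt e)) (S₀.s₁ e) (S₀.s₂ e) (tube S₀ e) C ϖ K' P1 P2 i₀
      u v ε₀ thick)
    (unif₁ : ∃ i, ∃ t : C i,
      (S₀.s₁ e).ord (S₀.res (S₀.src e) ⟨t, (H.model i).le₁ t t.2⟩) = 1)
    (unif₂ : ∃ i, ∃ t : C i,
      (S₀.s₂ e).ord (S₀.res (S₀.tgt e) ⟨t, (H.model i).le₂ t t.2⟩) = 1)
    (sep_comp : ∀ w, w ≠ S₀.src e → w ≠ S₀.tgt e → SepComp S₀ e w) :
    (annulusChartN_levelsSwap H unif₁ unif₂ sep_comp).u = v := rfl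

end Setup

/-! ### The literal form for the setup of a `MultiInput` -/

section Multi

variable {K : Type} {F : Type*} [Field K] [Field F] [Algebra K F]
  {A : ValuationSubring K} [IsAlgClosed (ResidueField A)]
  {ι₀ : Type} {Ft₀ : ι₀ → Type} [∀ v, Field (Ft₀ v)] [∀ v, Algebra (ResidueField A) (Ft₀ v)]
  {ν₀ : Type} (I : MultiInput (F := F) A (residue A) ι₀ Ft₀ ν₀) {e : ν₀} {ι : Type*}
  {C : ι → Subring F} {ϖ : ι → K} {K' : ι → Subfield K} {P1 P2 : ∀ i, Ideal (C i)} {i₀ : ι}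
  {u v ε₀ : F} {thick : K}

/-- The tube of the node `e` of the setup of a `MultiInput` is the tube of its source branch. -/
theorem tube_toSetup (e : ν₀) : tube I.toSetup e = I.tube ⟨I.src e, I.s₁ e⟩ :=
  I.setOf_r_eq _

/-- **The branch data of the swapped level data for the setup of a `MultiInput`**, stated with
the literals of the input. -/
theorem branchDataN_levelsSwap_toSetup_of_red
    (H : AnnulusModels A (residue A) (I.C (I.src e)).O (I.C (I.tgt e)).O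
      (I.C (I.src e)).res (I.C (I.tgt e)).res (I.s₁ e) (I.s₂ e) (tube I.toSetup e) C ϖ K' P1 P2
      i₀ u v ε₀ thick)
    {Dk₁ : Type*} [CommRing Dk₁] [IsDedekindDomain Dk₁] [Algebra Dk₁ (Ft₀ (I.src e))]
    [IsFractionRing Dk₁ (Ft₀ (I.src e))]
    {Dk₂ : Type*} [CommRing Dk₂] [IsDedekindDomain Dk₂] [Algebra Dk₂ (Ft₀ (I.tgt e))]
    [IsFractionRing Dk₂ (Ft₀ (I.tgt e))]
    (i₁ : ι) (red₁ : C i₁ →+* Dk₁)
    (hred₁ : ∀ x : C i₁, algebraMap Dk₁ (Ft₀ (I.src e)) (red₁ x) =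
      (I.C (I.src e)).res ⟨x, (H.model i₁).le₁ x x.2⟩)
    (hsurj₁ : Function.Surjective red₁)
    (i₂ : ι) (red₂ : C i₂ →+* Dk₂)
    (hred₂ : ∀ x : C i₂, algebraMap Dk₂ (Ft₀ (I.tgt e)) (red₂ x) =
      (I.C (I.tgt e)).res ⟨x, (H.model i₂).le₂ x x.2⟩)
    (hsurj₂ : Function.Surjective red₂)
    (sep_comp : ∀ w, w ≠ I.src e → w ≠ I.tgt e → SepComp I.toSetup e w) :
    BranchDataN I.toSetup e H.levelsSwap := by
  letI a₁ : Algebra Dk₁ (Ft₀ (I.toSetup.src e)) := ‹Algebra Dk₁ (Ft₀ (I.src e))›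
  haveI f₁ : IsFractionRing Dk₁ (Ft₀ (I.toSetup.src e)) := ‹IsFractionRing Dk₁ (Ft₀ (I.src e))›
  letI a₂ : Algebra Dk₂ (Ft₀ (I.toSetup.tgt e)) := ‹Algebra Dk₂ (Ft₀ (I.tgt e))›
  haveI f₂ : IsFractionRing Dk₂ (Ft₀ (I.toSetup.tgt e)) := ‹IsFractionRing Dk₂ (Ft₀ (I.tgt e))›
  exact branchDataN_levelsSwap_of_red (S₀ := I.toSetup) (e := e) H i₁ red₁ hred₁ hsurj₁ i₂ red₂
    hred₂ hsurj₂ sep_comp

end Multi

end Fermat.Agent.BR3.CircleN
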